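/-
S52 / Program E, leaf E7-MODEL (helper62): the abstract integral-model lemma of step (K5).

Given an integral Weierstrass model `W` and target invariants `(C4, C6)` which are congruent to
`(c₄, c₆)` modulo a high power of `6`, there is an integral model `W'` with the SAME `a₁, a₂, a₃`,
with `c₄ = C4`, `c₆ = C6`, and with literally the same reductions modulo `2` and `3`.
-/
import Mathlib
import Fermat.Prelude.Def_FLTPrelim_Modularity

set_option autoImplicit false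

namespace Fermat.Agent.S52.H62

open WeierstrassCurve

/-- The model with the `a₄, a₆` shifted by `-s` and `-t`. -/
def shiftModel (W : WeierstrassCurve ℤ) (s t : ℤ) : WeierstrassCurve ℤ :=
  ⟨W.a₁, W.a₂, W.a₃, W.a₄ - s, W.a₆ - t⟩

@[simp] lemma shiftModel_a₁ (W : WeierstrassCurve ℤ) (s t : ℤ) : (shiftModel W s t).a₁ = W.a₁ := rfl
@[simp] lemma shiftModel_a₂ (W : WeierstrassCurve ℤ) (s t : ℤ) : (shiftModel W s t).a₂ = W.a₂ := rfl
@[simp] lemma shiftModel_a₃ (W : WeierstrassCurve ℤ) (s t : ℤ) : (shiftModel W s t).a₃ = W.a₃ := rfl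
@[simp] lemma shiftModel_a₄ (W : WeierstrassCurve ℤ) (s t : ℤ) :
    (shiftModel W s t).a₄ = W.a₄ - s := rfl
@[simp] lemma shiftModel_a₆ (W : WeierstrassCurve ℤ) (s t : ℤ) :
    (shiftModel W s t).a₆ = W.a₆ - t := rfl

lemma shiftModel_c₄ (W : WeierstrassCurve ℤ) (s t : ℤ) :
    (shiftModel W s t).c₄ = W.c₄ + 48 * s := by
  simp only [WeierstrassCurve.c₄, WeierstrassCurve.b₂, WeierstrassCurve.b₄, shiftModel_a₁,
    shiftModel_a₂, shiftModel_a₃, shiftModel_a₄]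
  ring

lemma shiftModel_c₆ (W : WeierstrassCurve ℤ) (s t : ℤ) :
    (shiftModel W s t).c₆ = W.c₆ - 72 * W.b₂ * s + 864 * t := by
  simp only [WeierstrassCurve.c₆, WeierstrassCurve.b₂, WeierstrassCurve.b₄, WeierstrassCurve.b₆,
    shiftModel_a₁, shiftModel_a₂, shiftModel_a₃, shiftModel_a₄, shiftModel_a₆]
  ring

lemma shiftModel_map (W : WeierstrassCurve ℤ) (s t : ℤ) (p : ℕ) (hs : (p : ℤ) ∣ s)
    (ht : (p : ℤ) ∣ t) :
    (shiftModel W s t).map (Int.castRingHom (ZMod p)) = W.map (Int.castRingHom (ZMod p)) := by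
  have hs0 : ((s : ℤ) : ZMod p) = 0 := (ZMod.intCast_zmod_eq_zero_iff_dvd s p).2 hs
  have ht0 : ((t : ℤ) : ZMod p) = 0 := (ZMod.intCast_zmod_eq_zero_iff_dvd t p).2 ht
  ext <;> simp [shiftModel, WeierstrassCurve.map, hs0, ht0]

/-- **(K5), existence of the model.**  Target invariants congruent to those of `W` modulo
`2^7 * 3^4` (for `c₄`) and `2^6 * 3^4` (for `c₆`) are the invariants of an integral model with the
same `a₁, a₂, a₃` and literally the same reductions modulo `2` and modulo `3`. -/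
theorem exists_model (W : WeierstrassCurve ℤ) (C4 C6 : ℤ)
    (h4 : (2 ^ 7 * 3 ^ 4 : ℤ) ∣ C4 - W.c₄) (h6 : (2 ^ 6 * 3 ^ 4 : ℤ) ∣ C6 - W.c₆) :
    ∃ W' : WeierstrassCurve ℤ, W'.a₁ = W.a₁ ∧ W'.a₂ = W.a₂ ∧ W'.a₃ = W.a₃ ∧
      W'.c₄ = C4 ∧ W'.c₆ = C6 ∧ W'.reductionMod 2 = W.reductionMod 2 ∧
      W'.reductionMod 3 = W.reductionMod 3 := by
  obtain ⟨k4, hk4⟩ := h4
  obtain ⟨k6, hk6⟩ := h6
  refine ⟨shiftModel W (216 * k4) (6 * k6 + 18 * W.b₂ * k4), rfl, rfl, rfl, ?_, ?_, ?_, ?_⟩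
  · rw [shiftModel_c₄]; linarith
  · rw [shiftModel_c₆]; linarith
  · exact shiftModel_map W _ _ 2 ⟨108 * k4, by push_cast; ring⟩
      ⟨3 * k6 + 9 * W.b₂ * k4, by push_cast; ring⟩
  · exact shiftModel_map W _ _ 3 ⟨72 * k4, by push_cast; ring⟩
      ⟨2 * k6 + 6 * W.b₂ * k4, by push_cast; ring⟩

/-- Equal reductions give equal `apOfModel`. -/
lemma apOfModel_eq_of_reductionMod_eq {W W' : WeierstrassCurve ℤ} {p : ℕ}
    (h : W'.reductionMod p = W.reductionMod p) : W'.apOfModel p = W.apOfModel p := by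
  unfold WeierstrassCurve.apOfModel
  rw [h]

/-- Equal reductions modulo `p`: the discriminants are congruent modulo `p`. -/
lemma dvd_Δ_iff_of_reductionMod_eq {W W' : WeierstrassCurve ℤ} {p : ℕ}
    (h : W'.reductionMod p = W.reductionMod p) : (p : ℤ) ∣ W'.Δ ↔ (p : ℤ) ∣ W.Δ := by
  have h1 : (W'.reductionMod p).Δ = (W.reductionMod p).Δ := by rw [h]
  simp only [WeierstrassCurve.reductionMod, WeierstrassCurve.map_Δ] at h1
  rw [← ZMod.intCast_zmod_eq_zero_iff_dvd, ← ZMod.intCast_zmod_eq_zero_iff_dvd]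
  simpa using congrArg (· = (0 : ZMod p)) h1 |>.to_iff

/-- Equal reductions modulo `p`: the `c₄` are congruent modulo `p`. -/
lemma dvd_c₄_iff_of_reductionMod_eq {W W' : WeierstrassCurve ℤ} {p : ℕ}
    (h : W'.reductionMod p = W.reductionMod p) : (p : ℤ) ∣ W'.c₄ ↔ (p : ℤ) ∣ W.c₄ := by
  have h1 : (W'.reductionMod p).c₄ = (W.reductionMod p).c₄ := by rw [h]
  simp only [WeierstrassCurve.reductionMod, WeierstrassCurve.map_c₄] at h1
  rw [← ZMod.intCast_zmod_eq_zero_iff_dvd, ← ZMod.intCast_zmod_eq_zero_iff_dvd]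
  simpa using congrArg (· = (0 : ZMod p)) h1 |>.to_iff

/-- Congruent invariants modulo a prime `p ≠ 2, 3`: the discriminants are congruent modulo `p`. -/
lemma dvd_Δ_iff_of_dvd {W W' : WeierstrassCurve ℤ} {p : ℕ} (hp : p.Prime) (hp2 : p ≠ 2)
    (hp3 : p ≠ 3) (h4 : (p : ℤ) ∣ W'.c₄ - W.c₄) (h6 : (p : ℤ) ∣ W'.c₆ - W.c₆) :
    (p : ℤ) ∣ W'.Δ ↔ (p : ℤ) ∣ W.Δ := by
  have hpZ : Prime (p : ℤ) := Nat.prime_iff_prime_int.mp hp
  have h1728 : ¬ (p : ℤ) ∣ 1728 := by
    intro h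
    have h' : p ∣ 1728 := by exact_mod_cast h
    have h1728' : (1728 : ℕ) = 2 ^ 6 * 3 ^ 3 := by norm_num
    rw [h1728'] at h'
    rcases (Nat.Prime.dvd_mul hp).1 h' with h2 | h3
    · exact hp2 ((Nat.prime_dvd_prime_iff_eq hp Nat.prime_two).1 (hp.dvd_of_dvd_pow h2))
    · exact hp3 ((Nat.prime_dvd_prime_iff_eq hp Nat.prime_three).1 (hp.dvd_of_dvd_pow h3))
  have hdiff : (p : ℤ) ∣ 1728 * (W'.Δ - W.Δ) := by
    have e : 1728 * (W'.Δ - W.Δ) =
        (W'.c₄ - W.c₄) * (W'.c₄ ^ 2 + W'.c₄ * W.c₄ + W.c₄ ^ 2) -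
          (W'.c₆ - W.c₆) * (W'.c₆ + W.c₆) := by
      have e1 := W'.c_relation
      have e2 := W.c_relation
      linear_combination e1 - e2
    rw [e]
    exact dvd_sub (Dvd.dvd.mul_right h4 _) (Dvd.dvd.mul_right h6 _)
  have hd : (p : ℤ) ∣ W'.Δ - W.Δ := (hpZ.dvd_or_dvd hdiff).resolve_left h1728
  constructor
  · intro h
    have := dvd_sub h hd
    simpa using this
  · intro h
    have := dvd_add hd h
    simpa using this

/-- **(K5), semistability transfer.**  If `W` is semistable, `W'` has the same reductions modulo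
`2` and `3`, its invariants are congruent to those of `W` modulo `M`, and at the primes not
dividing `6 M` the discriminant and `c₄` of `W'` are never both divisible, then `W'` is
semistable. -/
theorem isSemistableModel_of {W W' : WeierstrassCurve ℤ} (hW : W.IsSemistableModel)
    (h2 : W'.reductionMod 2 = W.reductionMod 2) (h3 : W'.reductionMod 3 = W.reductionMod 3)
    (M : ℤ) (h4 : M ∣ W'.c₄ - W.c₄) (h6 : M ∣ W'.c₆ - W.c₆)
    (hout : ∀ p : ℕ, p.Prime → p ≠ 2 → p ≠ 3 → ¬ (p : ℤ) ∣ M → (p : ℤ) ∣ W'.Δ →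
      ¬ (p : ℤ) ∣ W'.c₄) :
    W'.IsSemistableModel := by
  intro p hp hpΔ
  by_cases hp2 : p = 2
  · subst hp2
    intro hc
    exact hW 2 hp ((dvd_Δ_iff_of_reductionMod_eq h2).1 hpΔ)
      ((dvd_c₄_iff_of_reductionMod_eq h2).1 hc)
  by_cases hp3 : p = 3
  · subst hp3
    intro hc
    exact hW 3 hp ((dvd_Δ_iff_of_reductionMod_eq h3).1 hpΔ)
      ((dvd_c₄_iff_of_reductionMod_eq h3).1 hc)
  by_cases hpM : (p : ℤ) ∣ M
  · have h4' : (p : ℤ) ∣ W'.c₄ - W.c₄ := hpM.trans h4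
    have h6' : (p : ℤ) ∣ W'.c₆ - W.c₆ := hpM.trans h6
    intro hc
    have hΔ : (p : ℤ) ∣ W.Δ := (dvd_Δ_iff_of_dvd hp hp2 hp3 h4' h6').1 hpΔ
    have hc' : (p : ℤ) ∣ W.c₄ := by
      have := dvd_sub hc h4'
      simpa using this
    exact hW p hp hΔ hc'
  · exact hout p hp hp2 hp3 hpM hpΔ

/-- Good primes at `2` and `3` are the same for models with equal reductions there. -/
lemma isGoodPrimeFor_iff_of_reductionMod_eq {W W' : WeierstrassCurve ℤ} {p : ℕ}
    (h : W'.reductionMod p = W.reductionMod p) : W'.IsGoodPrimeFor p ↔ W.IsGoodPrimeFor p := by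
  unfold WeierstrassCurve.IsGoodPrimeFor
  rw [dvd_Δ_iff_of_reductionMod_eq h]

/-- The congruence of `a_ℓ` modulo `5` at `ℓ = 2, 3` is trivial for models with equal reductions. -/
lemma five_dvd_apOfModel_sub_of_reductionMod_eq {W W' : WeierstrassCurve ℤ} {p : ℕ}
    (h : W'.reductionMod p = W.reductionMod p) :
    (5 : ℤ) ∣ W'.apOfModel p - W.apOfModel p := by
  rw [apOfModel_eq_of_reductionMod_eq h, sub_self]
  exact dvd_zero _

end Fermat.Agent.S52.H62
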